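import Fermat.Agent.H40.MWDiv.RootCore
import Fermat.Agent.H84.MWDiv.Interfaces
import Fermat.Agent.H85.S16Lift
import Fermat.Agent.H34.S31Kum.Elliptic

/-!
# P-MW / MW-A1-ROOT: unitary parabolic-elliptic trivial characters of `Γ₀(N)` have `n`-th roots

`charRootStatement N : Fermat.Agent.H84.MWDiv.CharRootStatement N`, from the landed lifting lemma
`Fermat.Agent.H85.exists_parabolic_lift_of_trace` and the abstract root lemma
`exists_unitary_root_of_lifting`.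
-/

set_option autoImplicit false

open scoped MatrixGroups
open CongruenceSubgroup Multiplicative

namespace Fermat.Agent.H40.MWDiv

/-- `Γ₀(N)` is finitely generated. -/
theorem gamma0_group_fg (N : ℕ) [NeZero N] : Group.FG ↥(Gamma0 N) := by
  have : Group.FG SL(2, ℤ) :=
    Group.fg_iff.mpr ⟨{ModularGroup.S, ModularGroup.T}, SpecialLinearGroup.SL2Z_generators,
      by simp⟩
  exact Subgroup.fg_of_index_ne_zero _

/-- The elements of `Γ₀(N)` of trace of absolute value at most `2`. -/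
def parEllSet (N : ℕ) : Set ↥(Gamma0 N) :=
  {γ | |((γ : SL(2, ℤ)) 0 0 + (γ : SL(2, ℤ)) 1 1 : ℤ)| ≤ 2}

/-- The lifting property of `Γ₀(N)` relative to the elements of trace `≤ 2` in absolute value. -/
theorem gamma0_lifting (N : ℕ) [NeZero N] (m : ℕ) [NeZero m]
    (φ : ↥(Gamma0 N) →* Multiplicative (ZMod m)) (hφ : ∀ t ∈ parEllSet N, φ t = 1) :
    ∃ Φ : ↥(Gamma0 N) →* Multiplicative ℤ, (∀ t ∈ parEllSet N, Φ t = 1) ∧
      ∀ g, ((toAdd (Φ g) : ℤ) : ZMod m) = toAdd (φ g) := by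
  have hneg : (-1 : SL(2, ℤ)) ∈ Gamma0 N := by
    rw [Gamma0_mem]
    simp
  have htr : ∀ γ : ↥(Gamma0 N), ((γ : SL(2, ℤ)) : Matrix (Fin 2) (Fin 2) ℤ).trace =
      (γ : SL(2, ℤ)) 0 0 + (γ : SL(2, ℤ)) 1 1 := fun γ => Matrix.trace_fin_two _
  set ψ₀ : Additive ↥(Gamma0 N) →+ ZMod m := MonoidHom.toAdditiveLeft φ with hψ₀
  have hψ₀T : ∀ t ∈ parEllSet N, ψ₀ (Additive.ofMul t) = 0 := by
    intro t ht
    simp [hψ₀, hφ t ht]
  have hpar : ModularCurve.Period.IsParabolicHom (Gamma0 N) ψ₀ := by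
    intro γ hγ
    apply hψ₀T
    rw [htr] at hγ
    show |((γ : SL(2, ℤ)) 0 0 + (γ : SL(2, ℤ)) 1 1 : ℤ)| ≤ 2
    rw [abs_le]
    constructor <;> nlinarith
  have hell : ∀ γ : ↥(Gamma0 N), (((γ : SL(2, ℤ)) : Matrix (Fin 2) (Fin 2) ℤ).trace = 0 ∨
      ((γ : SL(2, ℤ)) : Matrix (Fin 2) (Fin 2) ℤ).trace = 1) → ψ₀ (Additive.ofMul γ) = 0 := by
    intro γ hγ
    apply hψ₀T
    rw [htr] at hγ
    show |((γ : SL(2, ℤ)) 0 0 + (γ : SL(2, ℤ)) 1 1 : ℤ)| ≤ 2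
    rcases hγ with h | h <;> rw [h] <;> norm_num
  obtain ⟨Ψ, hΨpar, hΨ⟩ :=
    Fermat.Agent.H85.exists_parabolic_lift_of_trace (Gamma0 N) hneg m ψ₀ hpar hell
  refine ⟨AddMonoidHom.toMultiplicativeRight Ψ, fun t ht => ?_, fun g => ?_⟩
  · have h0 : Ψ (Additive.ofMul t) = 0 := by
      have ht' : |((t : SL(2, ℤ)) 0 0 + (t : SL(2, ℤ)) 1 1 : ℤ)| ≤ 2 := ht
      by_cases h2 : |((t : SL(2, ℤ)) 0 0 + (t : SL(2, ℤ)) 1 1 : ℤ)| ≤ 1
      · exact Fermat.Agent.H34.hom_eq_zero_of_abs_trace_le_one Ψ t h2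
      · apply hΨpar
        rw [htr]
        have h3 : |((t : SL(2, ℤ)) 0 0 + (t : SL(2, ℤ)) 1 1 : ℤ)| = 2 := by omega
        rw [← sq_abs, h3]
        norm_num
    simp [h0]
  · have := hΨ (Additive.ofMul g)
    simpa [hψ₀] using this

/-- **MW-A1-ROOT**: unitary parabolic-elliptic trivial characters of `Γ₀(N)` have `n`-th roots of
the same kind. -/
theorem charRootStatement (N : ℕ) [NeZero N] : Fermat.Agent.H84.MWDiv.CharRootStatement N := by
  intro n hn χ hχT hχu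
  have : Group.FG ↥(Gamma0 N) := gamma0_group_fg N
  obtain ⟨ψ, hψT, hψu, hψn⟩ := exists_unitary_root_of_lifting (parEllSet N)
    (fun m _ φ hφ => gamma0_lifting N m φ hφ) n hn χ (fun t ht => hχT t ht) hχu
  exact ⟨ψ, fun γ hγ => hψT γ hγ, hψu, hψn⟩

end Fermat.Agent.H40.MWDiv
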