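import Mathlib

/-!
# P-MW / MW-A1-ROOT, abstract core (Mathlib only)

Let `Q` be a finitely generated commutative group such that every homomorphism `Q → ℤ/m` lifts to
a homomorphism `Q → ℤ`.  Then `Q` is free, and every unitary character of `Q` has unitary `n`-th
roots.  `exists_unitary_root_of_lifting` is the version for a (noncommutative) group `G` and
characters trivial on a given set `T`.
-/

set_option autoImplicit false

namespace Fermat.Agent.H40.MWDiv

open Multiplicative

/-- Unitary complex units have unitary `n`-th roots. -/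
theorem exists_unitary_root (n : ℕ) (hn : 0 < n) (c : ℂˣ) (hc : ‖(c : ℂ)‖ = 1) :
    ∃ r : ℂˣ, ‖(r : ℂ)‖ = 1 ∧ r ^ n = c := by
  have hn' : (n : ℂ) ≠ 0 := by exact_mod_cast hn.ne'
  refine ⟨Units.mk0 (Complex.exp (((Complex.arg (c : ℂ) / n : ℝ) : ℂ) * Complex.I))
    (Complex.exp_ne_zero _), ?_, ?_⟩
  · simp only [Units.val_mk0]
    exact Complex.norm_exp_ofReal_mul_I _
  · apply Units.ext
    simp only [Units.val_pow_eq_pow_val, Units.val_mk0]
    rw [← Complex.exp_nat_mul]
    have h1 := Complex.norm_mul_exp_arg_mul_I (c : ℂ)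
    rw [hc, Complex.ofReal_one, one_mul] at h1
    have h2 : (n : ℂ) * (((Complex.arg (c : ℂ) / n : ℝ) : ℂ) * Complex.I) =
        (Complex.arg (c : ℂ) : ℂ) * Complex.I := by
      push_cast
      field_simp
    rw [h2, h1]

section free

variable {j : Type} [Fintype j]

/-- The character of `j → Multiplicative ℤ` with prescribed values on the standard generators. -/
noncomputable def freeChar (r : j → ℂˣ) : (j → Multiplicative ℤ) →* ℂˣ where
  toFun f := ∏ k, r k ^ (toAdd (f k))
  map_one' := by simp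
  map_mul' f g := by
    simp only [Pi.mul_apply, toAdd_mul, zpow_add]
    rw [Finset.prod_mul_distrib]

lemma freeChar_apply (r : j → ℂˣ) (f : j → Multiplicative ℤ) :
    freeChar r f = ∏ k, r k ^ (toAdd (f k)) := rfl

lemma norm_freeChar (r : j → ℂˣ) (hr : ∀ k, ‖(r k : ℂ)‖ = 1) (f : j → Multiplicative ℤ) :
    ‖((freeChar r f : ℂˣ) : ℂ)‖ = 1 := by
  rw [freeChar_apply]
  simp only [Units.coe_prod, Units.val_zpow_eq_zpow_val, norm_prod, norm_zpow, hr, one_zpow,
    Finset.prod_const_one]

/-- A character of `j → Multiplicative ℤ` is determined by its values on the standard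
generators. -/
lemma freeChar_mulSingle [DecidableEq j] (r : j → ℂˣ) (k₀ : j) :
    freeChar r (Pi.mulSingle k₀ (ofAdd 1)) = r k₀ := by
  rw [freeChar_apply, Finset.prod_eq_single k₀]
  · simp
  · intro k _ hk
    simp [Pi.mulSingle_eq_of_ne hk]
  · intro h
    exact absurd (Finset.mem_univ k₀) h

/-- A character of `j → Multiplicative ℤ` is determined by its values on the standard
generators. -/
lemma eq_freeChar [DecidableEq j] (χ : (j → Multiplicative ℤ) →* ℂˣ) :
    χ = freeChar fun k => χ (Pi.mulSingle k (ofAdd 1)) := by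
  ext k₀
  simp only [MonoidHom.coe_comp, Function.comp_apply, MonoidHom.mulSingle_apply]
  rw [freeChar_mulSingle]

end free

section comm

variable (Q : Type*) [CommGroup Q] [Group.FG Q]

/-- A finitely generated commutative group with the lifting property for homomorphisms to
`ℤ/m` is free: it is isomorphic to a finite power of `ℤ`. -/
theorem exists_mulEquiv_free_of_lifting
    (hlift : ∀ (m : ℕ) [NeZero m] (φ : Q →* Multiplicative (ZMod m)),
      ∃ Φ : Q →* Multiplicative ℤ, ∀ q, ((toAdd (Φ q) : ℤ) : ZMod m) = toAdd (φ q)) :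
    ∃ (j : Type) (_ : Fintype j), Nonempty (Q ≃* (j → Multiplicative ℤ)) := by
  classical
  obtain ⟨ι, j, _, _, p, hp, e, ⟨E⟩⟩ := CommGroup.equiv_free_prod_prod_multiplicative_zmod Q
  refine ⟨j, inferInstance, ?_⟩
  have hsub : ∀ i : ι, Subsingleton (Multiplicative (ZMod (p i ^ e i))) := by
    intro i
    have hne : NeZero (p i ^ e i) := ⟨pow_ne_zero _ (hp i).ne_zero⟩
    -- the projection to the `i`-th torsion factor
    let φ : Q →* Multiplicative (ZMod (p i ^ e i)) :=
      (Pi.evalMonoidHom (fun i => Multiplicative (ZMod (p i ^ e i))) i).comp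
        ((MonoidHom.snd _ _).comp E.toMonoidHom)
    obtain ⟨Φ, hΦ⟩ := hlift (p i ^ e i) φ
    set g : Q := E.symm (1, Pi.mulSingle i (ofAdd 1)) with hg
    have hgpow : g ^ (p i ^ e i) = 1 := by
      apply E.injective
      rw [map_pow, map_one, hg, E.apply_symm_apply, Prod.pow_mk, one_pow, ← Pi.mulSingle_pow,
        ← ofAdd_nsmul]
      simp
    have hΦg : toAdd (Φ g) = 0 := by
      have h1 : (Φ g) ^ (p i ^ e i) = 1 := by rw [← map_pow, hgpow, map_one]
      have h2 := congrArg toAdd h1
      rw [toAdd_pow, toAdd_one, nsmul_eq_mul] at h2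
      rcases mul_eq_zero.mp h2 with h3 | h3
      · exact absurd h3 (by exact_mod_cast hne.ne)
      · exact h3
    have hφg : toAdd (φ g) = 1 := by
      simp [φ, hg]
    have h10 : (1 : ZMod (p i ^ e i)) = 0 := by
      rw [← hφg, ← hΦ g, hΦg, Int.cast_zero]
    have hs : Subsingleton (ZMod (p i ^ e i)) := subsingleton_of_zero_eq_one h10.symm
    exact ⟨fun a b => congrArg ofAdd (Subsingleton.elim (toAdd a) (toAdd b))⟩
  have : Subsingleton ((i : ι) → Multiplicative (ZMod (p i ^ e i))) := inferInstance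
  have : Unique ((i : ι) → Multiplicative (ZMod (p i ^ e i))) := Unique.mk' _
  exact ⟨E.trans (MulEquiv.prodUnique)⟩

/-- In a finitely generated commutative group with the lifting property, unitary characters have
unitary `n`-th roots. -/
theorem exists_root_of_lifting_comm
    (hlift : ∀ (m : ℕ) [NeZero m] (φ : Q →* Multiplicative (ZMod m)),
      ∃ Φ : Q →* Multiplicative ℤ, ∀ q, ((toAdd (Φ q) : ℤ) : ZMod m) = toAdd (φ q))
    (n : ℕ) (hn : 0 < n) (χ : Q →* ℂˣ) (hχ : ∀ q, ‖(χ q : ℂ)‖ = 1) :
    ∃ ψ : Q →* ℂˣ, (∀ q, ‖(ψ q : ℂ)‖ = 1) ∧ ψ ^ n = χ := by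
  classical
  obtain ⟨j, _, ⟨E⟩⟩ := exists_mulEquiv_free_of_lifting Q hlift
  -- transport `χ` to the free group and take roots of the values at the generators
  set χ' : (j → Multiplicative ℤ) →* ℂˣ := χ.comp E.symm.toMonoidHom with hχ'
  have hroot : ∀ k : j, ∃ r : ℂˣ, ‖(r : ℂ)‖ = 1 ∧ r ^ n = χ' (Pi.mulSingle k (ofAdd 1)) :=
    fun k => exists_unitary_root n hn _ (hχ _)
  choose r hr1 hrn using hroot
  refine ⟨(freeChar r).comp E.toMonoidHom, fun q => norm_freeChar r hr1 _, ?_⟩
  have h1 : (freeChar r) ^ n = χ' := by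
    rw [eq_freeChar χ']
    ext k₀
    simp only [MonoidHom.coe_comp, Function.comp_apply, MonoidHom.mulSingle_apply,
      MonoidHom.pow_apply]
    rw [freeChar_mulSingle, freeChar_mulSingle, hrn]
  ext q
  have h2 := congrArg (fun θ : (j → Multiplicative ℤ) →* ℂˣ => θ (E q)) h1
  simp only [MonoidHom.pow_apply, hχ', MonoidHom.coe_comp, Function.comp_apply,
    MulEquiv.coe_toMonoidHom, MulEquiv.symm_apply_apply] at h2
  simp only [MonoidHom.pow_apply, MonoidHom.coe_comp, Function.comp_apply,
    MulEquiv.coe_toMonoidHom]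
  rw [h2]

end comm

section general

variable {G : Type*} [Group G] (T : Set G)

/-- The largest commutative quotient of `G` in which the elements of `T` become trivial. -/
abbrev ParQuot : Type _ := Abelianization G ⧸ Subgroup.closure (Abelianization.of '' T)

/-- The projection `G → ParQuot T`. -/
def parProj : G →* ParQuot T :=
  (QuotientGroup.mk' (Subgroup.closure (Abelianization.of '' T))).comp Abelianization.of

lemma parProj_surjective : Function.Surjective (parProj T) := by
  intro q
  obtain ⟨a, rfl⟩ := QuotientGroup.mk'_surjective _ q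
  obtain ⟨g, rfl⟩ := Quot.exists_rep a
  exact ⟨g, rfl⟩

lemma parProj_of_mem {t : G} (ht : t ∈ T) : parProj T t = 1 := by
  simp only [parProj, MonoidHom.coe_comp, Function.comp_apply, QuotientGroup.mk'_apply]
  rw [QuotientGroup.eq_one_iff]
  exact Subgroup.subset_closure ⟨t, ht, rfl⟩

/-- A homomorphism to a commutative group which is trivial on `T` factors through
`ParQuot T`. -/
def parLift {A : Type*} [CommGroup A] (f : G →* A) (hf : ∀ t ∈ T, f t = 1) : ParQuot T →* A :=
  QuotientGroup.lift _ (Abelianization.lift f) (by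
    rw [Subgroup.closure_le]
    rintro _ ⟨t, ht, rfl⟩
    simp only [SetLike.mem_coe, MonoidHom.mem_ker, Abelianization.lift_apply_of]
    exact hf t ht)

lemma parLift_parProj {A : Type*} [CommGroup A] (f : G →* A) (hf : ∀ t ∈ T, f t = 1) (g : G) :
    parLift T f hf (parProj T g) = f g := by
  simp [parLift, parProj]

/-- **Roots of unitary characters.**  Let `G` be a finitely generated group and `T ⊆ G` such
that every homomorphism `G → ℤ/m` trivial on `T` lifts to a homomorphism `G → ℤ` trivial on `T`.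
Then every unitary character of `G` trivial on `T` has unitary `n`-th roots trivial on `T`. -/
theorem exists_unitary_root_of_lifting [Group.FG G]
    (hlift : ∀ (m : ℕ) [NeZero m] (φ : G →* Multiplicative (ZMod m)), (∀ t ∈ T, φ t = 1) →
      ∃ Φ : G →* Multiplicative ℤ, (∀ t ∈ T, Φ t = 1) ∧
        ∀ g, ((toAdd (Φ g) : ℤ) : ZMod m) = toAdd (φ g))
    (n : ℕ) (hn : 0 < n) (χ : G →* ℂˣ) (hχT : ∀ t ∈ T, χ t = 1)
    (hχ : ∀ g, ‖(χ g : ℂ)‖ = 1) :
    ∃ ψ : G →* ℂˣ, (∀ t ∈ T, ψ t = 1) ∧ (∀ g, ‖(ψ g : ℂ)‖ = 1) ∧ ψ ^ n = χ := by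
  have hfg : Group.FG (ParQuot T) := Group.fg_of_surjective (parProj_surjective T)
  have hliftQ : ∀ (m : ℕ) [NeZero m] (φ : ParQuot T →* Multiplicative (ZMod m)),
      ∃ Φ : ParQuot T →* Multiplicative ℤ, ∀ q, ((toAdd (Φ q) : ℤ) : ZMod m) = toAdd (φ q) := by
    intro m _ φ
    obtain ⟨Φ, hΦT, hΦ⟩ := hlift m (φ.comp (parProj T)) fun t ht => by
      simp [parProj_of_mem T ht]
    refine ⟨parLift T Φ hΦT, fun q => ?_⟩
    obtain ⟨g, rfl⟩ := parProj_surjective T q
    rw [parLift_parProj, hΦ g]
    rfl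
  obtain ⟨ψ, hψ, hψn⟩ := exists_root_of_lifting_comm (ParQuot T) hliftQ n hn
    (parLift T χ hχT) fun q => by
      obtain ⟨g, rfl⟩ := parProj_surjective T q
      rw [parLift_parProj]
      exact hχ g
  refine ⟨ψ.comp (parProj T), fun t ht => ?_, fun g => hψ _, ?_⟩
  · simp [parProj_of_mem T ht]
  · ext g
    have := congrArg (fun θ : ParQuot T →* ℂˣ => θ (parProj T g)) hψn
    simp only [MonoidHom.pow_apply, parLift_parProj] at this
    simp only [MonoidHom.pow_apply, MonoidHom.coe_comp, Function.comp_apply]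
    rw [this]

end general

end Fermat.Agent.H40.MWDiv
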